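import Mathlib

/-!
# Block DFT factorisation of a determinant (algebraic heart of the cusp matrix, T20 piece C2)

`M a (φ ⟨s, m⟩) = ∑ i, C a ⟨s, i⟩ * u s ^ i * ζ s ^ (m * i)`  (Puiseux expansion of the `m`-th
translate at the cusp `s` of width `e s`) implies
`det M = det C * ∏_{s,i} u s ^ i * det (block DFT)`, and the last factor is a nonzero constant.
-/

set_option autoImplicit false

open Matrix Finset

namespace Fermat.Agent.S20_helper52

/-- The DFT matrix `(ζ ^ (m * i))_{i, m}` of size `n`. -/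
def dft (n : ℕ) (ζ : ℂ) : Matrix (Fin n) (Fin n) ℂ :=
  Matrix.of fun i m => ζ ^ ((m : ℕ) * (i : ℕ))

theorem dft_apply (n : ℕ) (ζ : ℂ) (i m : Fin n) : dft n ζ i m = ζ ^ ((m : ℕ) * (i : ℕ)) := rfl

theorem dft_eq_transpose_vandermonde (n : ℕ) (ζ : ℂ) :
    dft n ζ = (Matrix.vandermonde fun m : Fin n => ζ ^ (m : ℕ))ᵀ := by
  ext i m
  simp [dft, Matrix.vandermonde_apply, pow_mul]

theorem det_dft_ne_zero {n : ℕ} {ζ : ℂ} (hζ : IsPrimitiveRoot ζ n) : (dft n ζ).det ≠ 0 := by
  rw [dft_eq_transpose_vandermonde, Matrix.det_transpose, Matrix.det_vandermonde_ne_zero_iff]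
  intro a b hab
  have := hζ.pow_inj a.2 b.2 hab
  exact Fin.ext this

section Block

variable {S : Type*} [Fintype S] [DecidableEq S] (e : S → ℕ) (ζ : S → ℂ)

/-- The block-diagonal DFT matrix. -/
noncomputable def blockDFT : Matrix (Σ s, Fin (e s)) (Σ s, Fin (e s)) ℂ :=
  Matrix.blockDiagonal' fun s => dft (e s) (ζ s)

theorem det_blockDFT_ne_zero (hζ : ∀ s, IsPrimitiveRoot (ζ s) (e s)) : (blockDFT e ζ).det ≠ 0 := by
  have h : blockDFT e ζ * Matrix.blockDiagonal' (fun s => (dft (e s) (ζ s))⁻¹) = 1 := by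
    unfold blockDFT
    rw [← Matrix.blockDiagonal'_mul]
    have : (fun s => dft (e s) (ζ s) * (dft (e s) (ζ s))⁻¹) = fun s => (1 : Matrix _ _ ℂ) := by
      funext s
      exact Matrix.mul_nonsing_inv _ (isUnit_iff_ne_zero.mpr (det_dft_ne_zero (hζ s)))
    rw [this]
    exact Matrix.blockDiagonal'_one
  intro h0
  have := congrArg Matrix.det h
  rw [Matrix.det_mul, h0, zero_mul, Matrix.det_one] at this
  exact zero_ne_one this

variable {X : Type*} [Fintype X] [DecidableEq X] (φ : (Σ s, Fin (e s)) ≃ X)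

/-- **Block DFT factorisation**. -/
theorem det_eq_of_expansion (u : S → ℂ) (M : Matrix X X ℂ) (C : Matrix X (Σ s, Fin (e s)) ℂ)
    (h : ∀ a s (m : Fin (e s)), M a (φ ⟨s, m⟩)
      = ∑ i : Fin (e s), C a ⟨s, i⟩ * u s ^ (i : ℕ) * ζ s ^ ((m : ℕ) * (i : ℕ))) :
    M.det = (C.submatrix φ id).det * (∏ s, ∏ i : Fin (e s), u s ^ (i : ℕ))
      * (blockDFT e ζ).det := by
  have hfac : M.submatrix φ φ
      = C.submatrix φ id * Matrix.diagonal (fun j : Σ s, Fin (e s) => u j.1 ^ (j.2 : ℕ))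
        * blockDFT e ζ := by
    ext a ⟨s, m⟩
    rw [Matrix.submatrix_apply, h, Matrix.mul_apply, Fintype.sum_sigma]
    rw [Finset.sum_eq_single s]
    · refine Finset.sum_congr rfl fun i _ => ?_
      rw [Matrix.mul_diagonal, Matrix.submatrix_apply, id]
      unfold blockDFT
      rw [Matrix.blockDiagonal'_apply_eq, dft_apply]
    · intro s' _ hs'
      refine Finset.sum_eq_zero fun i _ => ?_
      unfold blockDFT
      rw [Matrix.blockDiagonal'_apply_ne _ _ _ hs', mul_zero]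
    · intro hs
      exact absurd (Finset.mem_univ s) hs
  have hdet := congrArg Matrix.det hfac
  rw [Matrix.det_submatrix_equiv_self, Matrix.det_mul, Matrix.det_mul, Matrix.det_diagonal,
    Fintype.prod_sigma] at hdet
  exact hdet

end Block

/-- `∏_{i < n} u ^ i = u ^ (n (n - 1) / 2)`, in squared form. -/
theorem prod_pow_fin_sq (n : ℕ) (u : ℂ) :
    (∏ i : Fin n, u ^ (i : ℕ)) ^ 2 = (u ^ n) ^ (n - 1) := by
  rw [Finset.prod_pow_eq_pow_sum, ← pow_mul, ← pow_mul, Fin.sum_univ_eq_sum_range (fun i => i) n,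
    Finset.sum_range_id_mul_two, mul_comm]

section Square

variable {S : Type*} [Fintype S] (e : S → ℕ)

theorem prod_prod_pow_sq (u : S → ℂ) (q : ℂ) (hu : ∀ s, u s ^ e s = q) :
    (∏ s, ∏ i : Fin (e s), u s ^ (i : ℕ)) ^ 2 = q ^ (∑ s, (e s - 1)) := by
  rw [← Finset.prod_pow, ← Finset.prod_pow_eq_pow_sum]
  refine Finset.prod_congr rfl fun s _ => ?_
  rw [prod_pow_fin_sq, hu]

theorem sum_sub_one_eq {X : Type*} [Fintype X] (φ : (Σ s, Fin (e s)) ≃ X) (he : ∀ s, 0 < e s) :
    ∑ s, (e s - 1) + Fintype.card S = Fintype.card X := by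
  have h1 : Fintype.card X = ∑ s, e s := by
    rw [← Fintype.card_congr φ, Fintype.card_sigma]
    simp
  have h2 : Fintype.card S = ∑ _s : S, 1 := by simp
  rw [h1, h2, ← Finset.sum_add_distrib]
  refine Finset.sum_congr rfl fun s _ => ?_
  have := he s
  omega

end Square

end Fermat.Agent.S20_helper52
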